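import Mathlib.AlgebraicGeometry.Group.Abelian

/-!
# S26 / CUBE, leaf C0 (helper686): the rigidity lemma

`K` algebraically closed.  `Y` proper over `K` with a `K`-point `y₀`, `Z` locally of finite type
over `K` with a `K`-point `z₀`, `Y ×_K Z` integral, `J` separated and locally of finite type
over `K`.  If `φ : Y ×_K Z ⟶ J` is constant on `Y × z₀`, then `φ (y, z) = φ (y₀, z)`.
-/

set_option autoImplicit false
set_option backward.isDefEq.respectTransparency false

universe u

open CategoryTheory CategoryTheory.Limits AlgebraicGeometry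

namespace Fermat.Agent.S26.H686

variable {K : Type u} [Field K] {Y Z J : Scheme.{u}}

/-- The fibre of `pullback.snd` over a `K`-point is the range of the section `(id, y ≫ z₀)`. -/
theorem range_lift_id (y : Y ⟶ Spec (.of K)) (z : Z ⟶ Spec (.of K))
    (z₀ : Spec (.of K) ⟶ Z) (hz₀ : z₀ ≫ z = 𝟙 _) :
    Set.range (pullback.lift (𝟙 Y) (y ≫ z₀) (by simp [hz₀]) : Y ⟶ pullback y z) =
      pullback.snd y z ⁻¹' {z₀ (IsLocalRing.closedPoint K)} := by
  have h1 : (pullback.lift (𝟙 Y) (y ≫ z₀) (by simp [hz₀]) : Y ⟶ pullback y z) =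
      pullback.lift (𝟙 Y) y (by simp) ≫
        pullback.map y (𝟙 _) y z (𝟙 Y) z₀ (𝟙 _) (by simp) (by simp [hz₀]) := by
    apply pullback.hom_ext <;> simp
  have h2 : IsIso (pullback.lift (𝟙 Y) y (by simp) : Y ⟶ pullback y (𝟙 (Spec (.of K)))) := by
    refine ⟨pullback.fst _ _, by simp, ?_⟩
    apply pullback.hom_ext
    · simp
    · simp [pullback.condition]
  have h3 : Function.Surjective
      (pullback.lift (𝟙 Y) y (by simp) : Y ⟶ pullback y (𝟙 (Spec (.of K)))) :=
    (pullback.lift (𝟙 Y) y (by simp) : Y ⟶ pullback y (𝟙 (Spec (.of K)))).surjective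
  have h4 : Set.range z₀ = {z₀ (IsLocalRing.closedPoint K)} := by
    ext w
    constructor
    · rintro ⟨a, rfl⟩
      rw [Subsingleton.elim a (IsLocalRing.closedPoint K)]
      rfl
    · rintro rfl
      exact ⟨_, rfl⟩
  rw [h1, Scheme.Hom.comp_base, TopCat.coe_comp, Set.range_comp, h3.range_eq, Set.image_univ,
    Scheme.Pullback.range_map, h4]
  simp


variable [IsAlgClosed K]

/-- **Rigidity lemma** (integral form).  `Y` proper and irreducible over the algebraically closed
field `K` with a `K`-point `y₀`; `Z` locally of finite type over `K` with a `K`-point `z₀`;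
`Y ×_K Z` integral; `J` separated and locally of finite type over `K`.  A `K`-morphism
`φ : Y ×_K Z ⟶ J` which is constant on `Y × z₀` factors through the projection to `Z`:
`φ = p₂ ≫ (y₀, id) ≫ φ`. -/
theorem rigidity_of_isIntegral
    (y : Y ⟶ Spec (.of K)) (z : Z ⟶ Spec (.of K)) (j : J ⟶ Spec (.of K))
    [IsProper y] [IrreducibleSpace Y] [IsIntegral (pullback y z)] [LocallyOfFiniteType z]
    [IsSeparated j] [LocallyOfFiniteType j]
    (y₀ : Spec (.of K) ⟶ Y) (hy₀ : y₀ ≫ y = 𝟙 _)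
    (z₀ : Spec (.of K) ⟶ Z) (hz₀ : z₀ ≫ z = 𝟙 _)
    (j₀ : Spec (.of K) ⟶ J)
    (φ : pullback y z ⟶ J) (hφ : φ ≫ j = pullback.fst y z ≫ y)
    (hconst : pullback.lift (𝟙 Y) (y ≫ z₀) (by simp [hz₀]) ≫ φ = y ≫ j₀) :
    φ = pullback.snd y z ≫ pullback.lift (z ≫ y₀) (𝟙 Z) (by simp [hy₀]) ≫ φ := by
  let point : Spec (.of K) := IsLocalRing.closedPoint K
  have hLFT : LocallyOfFiniteType (φ ≫ j) := by rw [hφ]; infer_instance
  have : JacobsonSpace ↥(pullback y z : Scheme.{u}) := LocallyOfFiniteType.jacobsonSpace (φ ≫ j)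
  have hcond : pullback.snd y z ≫ z = φ ≫ j := by rw [hφ, pullback.condition]
  let γ : pullback y z ⟶ pullback z j := pullback.lift (pullback.snd y z) φ hcond
  let g : pullback z j ⟶ Z := pullback.fst z j
  have hγg : γ ≫ g = pullback.snd y z := pullback.lift_fst _ _ _
  have hγφ : γ ≫ pullback.snd z j = φ := pullback.lift_snd _ _ _
  have : IsProper (γ ≫ g) := by rw [hγg]; infer_instance
  have : IsProper γ := .of_comp γ g
  have hj₀ : j₀ ≫ j = 𝟙 _ := by
    have h := congr(y₀ ≫ $hconst ≫ j)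
    simp only [Category.assoc, hφ, pullback.lift_fst_assoc, Category.id_comp] at h
    rw [reassoc_of% hy₀, hy₀] at h
    exact h.symm
  -- the image of the fibre over `z₀` is a point
  let q : ↥(pullback z j : Scheme.{u}) := (pullback.lift z₀ j₀ (by rw [hz₀, hj₀])) point
  have H : γ '' ((γ ≫ g) ⁻¹' {z₀ point}) ⊆ {q} := by
    rintro _ ⟨x, hx, rfl⟩
    rw [hγg, ← range_lift_id y z z₀ hz₀] at hx
    obtain ⟨a, rfl⟩ := hx
    have h1 : (pullback.lift (𝟙 Y) (y ≫ z₀) (by simp [hz₀]) : Y ⟶ pullback y z) ≫ γ =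
        y ≫ pullback.lift z₀ j₀ (by rw [hz₀, hj₀]) := by
      apply pullback.hom_ext
      · simp [γ]
      · simp [γ, hconst]
    rw [Set.mem_singleton_iff, ← Scheme.Hom.comp_apply, h1, Scheme.Hom.comp_apply]
    exact congrArg _ (Subsingleton.elim _ _)
  obtain ⟨U, hU, HU⟩ := exists_finite_imageι_comp_morphismRestrict_of_finite_image_preimage
    γ g (z₀ point) ((Set.finite_singleton _).subset H)
  -- over `U` the fibres of `image γ → Z` are finite
  have Hfib (x : U) : (g ⁻¹' {x.1} ∩ Set.range γ).Finite := by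
    refine ((((γ.imageι ≫ g) ∣_ U).finite_preimage_singleton x).image
      (Scheme.Opens.ι _ ≫ γ.imageι)).subset ?_
    rintro _ ⟨hw, t, rfl⟩
    have hw' : (γ.imageι ≫ g) (γ.toImage t) = x.1 := by
      rw [← Scheme.Hom.comp_apply, Scheme.Hom.toImage_imageι_assoc]
      exact hw
    have hmem : γ.toImage t ∈ (γ.imageι ≫ g) ⁻¹ᵁ U := by
      show (γ.imageι ≫ g) (γ.toImage t) ∈ U
      rw [hw']
      exact x.2
    refine ⟨⟨γ.toImage t, hmem⟩, ?_, ?_⟩
    · apply Subtype.ext
      have := congr($(morphismRestrict_ι (γ.imageι ≫ g) U) ⟨γ.toImage t, hmem⟩)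
      simp only [Scheme.Hom.comp_apply] at this
      exact this.trans hw'
    · rw [Scheme.Hom.comp_apply]
      show γ.imageι (γ.toImage t) = γ t
      rw [← Scheme.Hom.comp_apply, Scheme.Hom.toImage_imageι]
  -- the retraction `(y, z) ↦ (y₀, z)`
  let r : pullback y z ⟶ pullback y z :=
    pullback.snd y z ≫ pullback.lift (z ≫ y₀) (𝟙 Z) (by simp [hy₀])
  have hr : r ≫ pullback.snd y z = pullback.snd y z := by simp [r]
  show φ = r ≫ φ
  refine ext_of_apply_eq j (((pullback.snd y z) ⁻¹ᵁ U : (pullback y z).Opens) : Set ↥(pullback y z))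
    ((pullback.snd y z) ⁻¹ᵁ U).isOpen.isLocallyClosed
    (((pullback.snd y z) ⁻¹ᵁ U).isOpen.dense ?_) ?_ ?_
  · refine ⟨(pullback.lift y₀ z₀ (by rw [hy₀, hz₀]) : Spec (.of K) ⟶ pullback y z) point, ?_⟩
    show pullback.snd y z _ ∈ U
    rw [← Scheme.Hom.comp_apply, pullback.lift_snd]
    exact hU
  · intro p hpU hp
    have hx : IsClosed {pullback.snd y z p} := by
      simpa using (pullback.snd y z).isClosedMap _ hp
    let xp : Spec (.of K) ⟶ Z := pointOfClosedPoint z _ hx
    have hxp : xp ≫ z = 𝟙 _ := pointOfClosedPoint_comp z _ hx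
    have hxp' : xp point = pullback.snd y z p := pointOfClosedPoint_apply z _ hx point
    have hS : pullback.snd y z ⁻¹' {pullback.snd y z p} =
        Set.range (pullback.lift (𝟙 Y) (y ≫ xp) (by simp [hxp]) : Y ⟶ pullback y z) := by
      rw [range_lift_id y z xp hxp, hxp']
    have hsub := subsingleton_image_closure_of_finite_of_isPreirreducible
      (f := γ) (S := pullback.snd y z ⁻¹' {pullback.snd y z p})
      (hx.preimage (pullback.snd y z).continuous).isLocallyClosed ?_ γ.continuous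
      γ.isClosedMap ((Hfib ⟨_, hpU⟩).subset ?_)
    · have h1 : γ p = γ (r p) := by
        refine hsub ⟨p, subset_closure rfl, rfl⟩ ⟨r p, subset_closure ?_, rfl⟩
        show pullback.snd y z (r p) = pullback.snd y z p
        rw [← Scheme.Hom.comp_apply, hr]
      have h2 := congr((pullback.snd z j) $h1)
      rw [← Scheme.Hom.comp_apply, ← Scheme.Hom.comp_apply, hγφ] at h2
      rw [h2, Scheme.Hom.comp_apply]
      rfl
    · rw [hS, ← Set.image_univ]
      exact ((IrreducibleSpace.isIrreducible_univ Y).image _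
        (Scheme.Hom.continuous _).continuousOn).isPreirreducible
    · rintro _ ⟨w, hw, rfl⟩
      refine ⟨?_, w, rfl⟩
      show g (γ w) = pullback.snd y z p
      rw [← Scheme.Hom.comp_apply, hγg]
      exact hw
  · simp only [r, Category.assoc, hφ, pullback.lift_fst_assoc]
    rw [pullback.condition, hy₀, Category.comp_id]


/-- **Rigidity lemma** (C0).  `Y` proper and geometrically integral over the algebraically
closed field `K` with a `K`-point `y₀`; `Z` integral and locally of finite type over `K` with a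
`K`-point `z₀`; `J` separated and locally of finite type over `K`.  A `K`-morphism
`φ : Y ×_K Z ⟶ J` which is constant on `Y × z₀` satisfies `φ = p₂ ≫ (y₀, id) ≫ φ`. -/
theorem rigidity
    (y : Y ⟶ Spec (.of K)) (z : Z ⟶ Spec (.of K)) (j : J ⟶ Spec (.of K))
    [IsProper y] [GeometricallyIntegral y] [IsIntegral Z] [LocallyOfFiniteType z]
    [IsSeparated j] [LocallyOfFiniteType j]
    (y₀ : Spec (.of K) ⟶ Y) (hy₀ : y₀ ≫ y = 𝟙 _)
    (z₀ : Spec (.of K) ⟶ Z) (hz₀ : z₀ ≫ z = 𝟙 _)
    (j₀ : Spec (.of K) ⟶ J)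
    (φ : pullback y z ⟶ J) (hφ : φ ≫ j = pullback.fst y z ≫ y)
    (hconst : pullback.lift (𝟙 Y) (y ≫ z₀) (by simp [hz₀]) ≫ φ = y ≫ j₀) :
    φ = pullback.snd y z ≫ pullback.lift (z ≫ y₀) (𝟙 Z) (by simp [hy₀]) ≫ φ := by
  have : IsIntegral Y := GeometricallyIntegral.isIntegral_of_subsingleton y
  have : IsLocallyNoetherian Z := LocallyOfFiniteType.isLocallyNoetherian z
  have : IsIntegral (pullback y z) := inferInstance
  exact rigidity_of_isIntegral y z j y₀ hy₀ z₀ hz₀ j₀ φ hφ hconst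

/-- **Rigidity lemma, constant form.**  If moreover `φ` is constant on `y₀ × Z`, then `φ` is
constant. -/
theorem rigidity_const
    (y : Y ⟶ Spec (.of K)) (z : Z ⟶ Spec (.of K)) (j : J ⟶ Spec (.of K))
    [IsProper y] [GeometricallyIntegral y] [IsIntegral Z] [LocallyOfFiniteType z]
    [IsSeparated j] [LocallyOfFiniteType j]
    (y₀ : Spec (.of K) ⟶ Y) (hy₀ : y₀ ≫ y = 𝟙 _)
    (z₀ : Spec (.of K) ⟶ Z) (hz₀ : z₀ ≫ z = 𝟙 _)
    (j₀ : Spec (.of K) ⟶ J)
    (φ : pullback y z ⟶ J) (hφ : φ ≫ j = pullback.fst y z ≫ y)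
    (hY : pullback.lift (𝟙 Y) (y ≫ z₀) (by simp [hz₀]) ≫ φ = y ≫ j₀)
    (hZ : pullback.lift (z ≫ y₀) (𝟙 Z) (by simp [hy₀]) ≫ φ = z ≫ j₀) :
    φ = (pullback.fst y z ≫ y) ≫ j₀ := by
  rw [rigidity y z j y₀ hy₀ z₀ hz₀ j₀ φ hφ hY, hZ, pullback.condition, Category.assoc]

end Fermat.Agent.S26.H686
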