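import Fermat.Agent.S25.H205.GlobalSections

/-!
# S26 / PIC, leaf P4 (helper686), part A: functions on `X ×_K W`

`K` algebraically closed, `w : W ⟶ Spec K` proper, `W` integral.  For every `K`-scheme `X` and
every open `U ⊆ X`, `Γ(X, U) ⟶ Γ(X ×_K W, pr₁⁻¹ U)` is an isomorphism.
-/

set_option autoImplicit false

universe u

open CategoryTheory CategoryTheory.Limits AlgebraicGeometry

namespace Fermat.Agent.S26.H686

variable (K : Type u) [Field K] [IsAlgClosed K] {X W : Scheme.{u}}
  (x : X ⟶ Spec (CommRingCat.of K)) (w : W ⟶ Spec (CommRingCat.of K))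

/-- `(pr₁)_* 𝒪_{X × W} = 𝒪_X` for `W` proper integral over the algebraically closed field `K`. -/
theorem isIso_fst_app [IsProper w] [IsIntegral W] (U : X.Opens) :
    IsIso ((pullback.fst x w).app U) := by
  have h : pullback.fst x w = (pullbackSymmetry x w).hom ≫ pullback.snd w x := by simp
  have h1 : IsIso ((pullback.snd w x).app U) := Fermat.Agent.S25.H205.isIso_snd_app K w x U
  rw [Scheme.Hom.congr_app h U, Scheme.Hom.comp_app]
  have h2 : IsIso ((pullbackSymmetry x w).hom.app (pullback.snd w x ⁻¹ᵁ U)) := inferInstance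
  have h3 : IsIso ((pullback.snd w x).app U ≫
      (pullbackSymmetry x w).hom.app (pullback.snd w x ⁻¹ᵁ U)) := IsIso.comp_isIso' h1 h2
  exact IsIso.comp_isIso' h3 inferInstance

theorem fst_app_bijective [IsProper w] [IsIntegral W] (U : X.Opens) :
    Function.Bijective ((pullback.fst x w).app U).hom := by
  have := isIso_fst_app K x w U
  exact ConcreteCategory.bijective_of_isIso ((pullback.fst x w).app U)

end Fermat.Agent.S26.H686
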