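import Fermat.Agent.S26.H686.P4Core
import Fermat.Agent.S26.H686.P4Sections
import Fermat.Agent.S26.Pic.Sections
import Fermat.Agent.S26.SpecCube

/-!
# S26 / PIC, leaf P4 (helper686): `Stmt.LocalOnBase` for the Čech model `Pic.cechPic`

`theorem localOnBase : Stmt.LocalOnBase Pic.cechPic K`.

A class `N = cl c` on `P = X ×_K W` (`W` proper, geometrically integral over the algebraically
closed field `K`, with a `K`-point `w₀`) which is trivial over `pr⁻¹ (U p)` for an open cover
`U p` of `X` is `pr^* (inl^* N)`.

Proof.  Over `pr⁻¹ (U p)` the cocycle `c` is a coboundary (`Pic.map_cl_eq_zero_iff`, helper347).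
The quotients of two trivialisations glue to units on `pr⁻¹ (U p ⊓ U p')`, which descend to `X`
because `Γ(X, U) ≅ Γ(P, pr⁻¹ U)` (`fst_app_bijective`); this is `descend_cocycle` (P4Core).
So `c` is cohomologous to `pr^* d` for a cocycle `d` on `X`, and `inl^* pr^* = id`.
-/

set_option autoImplicit false

universe u

open CategoryTheory CategoryTheory.Limits AlgebraicGeometry TopologicalSpace Opposite

namespace Fermat.Agent.S26.H686

open Fermat.Agent.S26

section Transport

variable {P V : Scheme.{u}} (j : V ⟶ P)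

/-- the opens `V0 v`, extended by `⊥` -/
noncomputable def optOpen (V0 : V → P.Opens) : Option V → P.Opens
  | none => ⊥
  | some v => V0 v

/-- the units `h v`, extended by `1` -/
noncomputable def optUnit (V0 : V → P.Opens) (h : ∀ v, Γ(P, V0 v)ˣ) :
    ∀ o : Option V, Γ(P, optOpen V0 o)ˣ
  | none => 1
  | some v => h v

open Classical in
/-- a chosen preimage -/
noncomputable def optPre (t : P) : Option V :=
  if ht : ∃ v, j v = t then some ht.choose else none

theorem optPre_spec (t : P) (v : V) (h : optPre j t = some v) : j v = t := by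
  unfold optPre at h
  split_ifs at h with ht
  have := ht.choose_spec
  rw [Option.some.injEq] at h
  rw [← h]; exact this

theorem optPre_apply (hj : Function.Injective j) (v : V) : optPre j (j v) = some v := by
  have ht : ∃ v', j v' = j v := ⟨v, rfl⟩
  unfold optPre
  rw [dif_pos ht]
  exact congrArg some (hj ht.choose_spec)

/-- The local trivialisations of `Pic.map_cl_eq_zero_iff`, indexed by the points of `P`. -/
theorem exists_local_data [IsOpenImmersion j] (c : Pic.Cocycle P)
    (h0 : Pic.cechPic.map j (Pic.cl c) = 0) :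
    ∃ (V' : P → P.Opens) (h : ∀ t, Γ(P, V' t)ˣ) (hle : ∀ t, V' t ≤ c.U t),
      (∀ t, t ∈ j.opensRange → t ∈ V' t) ∧ (∀ t, V' t ≤ j.opensRange) ∧
      ∀ t t', rs (inf_le_inf (hle t) (hle t')) (c.g t t' : Γ(P, c.U t ⊓ c.U t')) *
          rs (inf_le_right : V' t ⊓ V' t' ≤ V' t') (h t' : Γ(P, V' t')) =
        rs (inf_le_left : V' t ⊓ V' t' ≤ V' t) (h t : Γ(P, V' t)) := by
  obtain ⟨V0, hmem, hle, hran, h, H⟩ := (Pic.map_cl_eq_zero_iff j c).mp h0
  have hj : Function.Injective j := j.isOpenEmbedding.injective
  have hle' : ∀ (t : P) (o : Option V), (∀ v, o = some v → j v = t) →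
      optOpen V0 o ≤ c.U t := by
    intro t o ho
    cases o with
    | none => exact bot_le
    | some v => obtain rfl := ho v rfl; exact hle v
  have hran' : ∀ o : Option V, optOpen V0 o ≤ j.opensRange := by
    intro o
    cases o with
    | none => exact bot_le
    | some v => exact hran v
  have key : ∀ (t t' : P) (o o' : Option V) (ho : ∀ v, o = some v → j v = t)
      (ho' : ∀ v, o' = some v → j v = t'),
      rs (inf_le_inf (hle' t o ho) (hle' t' o' ho')) (c.g t t' : Γ(P, c.U t ⊓ c.U t')) *
        rs (inf_le_right : optOpen V0 o ⊓ optOpen V0 o' ≤ optOpen V0 o')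
          (optUnit V0 h o' : Γ(P, optOpen V0 o')) =
      rs (inf_le_left : optOpen V0 o ⊓ optOpen V0 o' ≤ optOpen V0 o)
        (optUnit V0 h o : Γ(P, optOpen V0 o)) := by
    intro t t' o o' ho ho'
    cases o with
    | none =>
      refine rs_ext _ _ fun p hp => ?_
      exact absurd hp.1 (by simp [optOpen])
    | some v =>
      cases o' with
      | none =>
        refine rs_ext _ _ fun p hp => ?_
        exact absurd hp.2 (by simp [optOpen])
      | some v' =>
        obtain rfl := ho v rfl
        obtain rfl := ho' v' rfl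
        exact congrArg Units.val (H v v')
  refine ⟨fun t => optOpen V0 (optPre j t), fun t => optUnit V0 h (optPre j t),
    fun t => hle' t _ (optPre_spec j t), ?_, fun t => hran' _, fun t t' =>
      key t t' _ _ (optPre_spec j t) (optPre_spec j t')⟩
  rintro t ⟨v, rfl⟩
  show j v ∈ optOpen V0 (optPre j (j v))
  rw [optPre_apply j hj v]
  exact hmem v

end Transport

section Main

variable (K : Type u) [Field K]

instance isOpenImmersion_prodMapLeft {X X' W : Scheme.{u}} (x : X ⟶ Spec (CommRingCat.of K))
    (x' : X' ⟶ Spec (CommRingCat.of K)) (w : W ⟶ Spec (CommRingCat.of K)) (f : X' ⟶ X)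
    (hf : f ≫ x = x') [IsOpenImmersion f] : IsOpenImmersion (prodMapLeft x x' w f hf) := by
  unfold prodMapLeft
  infer_instance

/-- The range of `U × W → X × W` is `pr⁻¹ U`. -/
theorem opensRange_prodMapLeft {X W : Scheme.{u}} (x : X ⟶ Spec (CommRingCat.of K))
    (w : W ⟶ Spec (CommRingCat.of K)) (U : X.Opens) :
    (prodMapLeft x (U.ι ≫ x) w U.ι rfl).opensRange = pullback.fst x w ⁻¹ᵁ U := by
  apply Opens.ext
  rw [Scheme.Hom.coe_opensRange]
  unfold prodMapLeft
  rw [Scheme.Pullback.range_map]
  simp

/-- **P4** for the Čech model. -/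
theorem localOnBase [IsAlgClosed K] : Stmt.LocalOnBase Pic.cechPic.{u} K := by
  intro X W x w _ _ w₀ N hN
  obtain ⟨c, rfl⟩ := Pic.cl_surjective N
  have : IsIntegral W := GeometricallyIntegral.isIntegral_of_subsingleton w
  choose U hpU hU using hN
  have hdata := fun p => exists_local_data (prodMapLeft x ((U p).ι ≫ x) w (U p).ι rfl) c (hU p)
  choose V' h hle hmem hran hrel using hdata
  simp only [opensRange_prodMapLeft] at hmem hran
  have hcoc : ∀ t t' t'',
      rs (show c.U t ⊓ c.U t' ⊓ c.U t'' ≤ c.U t ⊓ c.U t'' from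
          le_inf (inf_le_left.trans inf_le_left) inf_le_right)
          (c.g t t'' : Γ(pullback x w, c.U t ⊓ c.U t'')) =
        rs (show c.U t ⊓ c.U t' ⊓ c.U t'' ≤ c.U t ⊓ c.U t' from inf_le_left)
            (c.g t t' : Γ(pullback x w, c.U t ⊓ c.U t')) *
          rs (show c.U t ⊓ c.U t' ⊓ c.U t'' ≤ c.U t' ⊓ c.U t'' from
            le_inf (inf_le_left.trans inf_le_right) inf_le_right)
            (c.g t' t'' : Γ(pullback x w, c.U t' ⊓ c.U t'')) := fun t t' t'' =>
    (congrArg Units.val (c.cocycle t t' t'')).symm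
  obtain ⟨u, hu1, hu2⟩ := descend_cocycle (pullback.fst x w) (fst_app_bijective K x w)
    c.U c.g hcoc U V' (fun p t ht => hmem p t ht) hle hran h hrel
  let d : Pic.Cocycle X :=
    { U := U
      mem := hpU
      g := u
      cocycle := fun p p' p'' => Units.ext (hu1 p p' p'').symm }
  have hrel' : Pic.Cocycle.Rel c (d.pullback (pullback.fst x w)) := by
    refine ⟨fun t => V' (pullback.fst x w t) t, fun t => hmem _ t (hpU _), fun t => hle _ t,
      fun t => hran _ t, fun t => h _ t, fun t t' => ?_⟩
    apply Units.ext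
    rw [Pic.Cocycle.res_pullback_g]
    exact hu2 t t'
  have h1 : Pic.cl c = Pic.cechPic.map (pullback.fst x w) (Pic.cl d) := by
    rw [Pic.map_cl]
    exact Pic.cl_eq_cl.mpr hrel'
  have h3 : inl x w w₀ ≫ pullback.fst x w = 𝟙 X := by
    unfold inl
    exact pullback.lift_fst _ _ _
  have h2 : Pic.cechPic.map (inl x w w₀) (Pic.cl c) = Pic.cl d := by
    rw [h1, ← Pic.cechPic.map_comp, h3, Pic.cechPic.map_id]
  rw [h2]
  exact h1

end Main

end Fermat.Agent.S26.H686
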