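import Mathlib.AlgebraicGeometry.Scheme
import Mathlib.AlgebraicGeometry.OpenImmersion
import Mathlib.Topology.Sheaves.SheafCondition.UniqueGluing

/-!
# S26 / PIC, leaf P4 (helper686), part B: gluing and descent of units (model independent)

`rs h : Γ(P, V) →+* Γ(P, V')` is the restriction of functions for `h : V' ≤ V`.

* `rs_ext`, `rs_glue`, `rs_glue_units` : functions (units) are determined locally and glue.
* `descend_cocycle` : THE CORE OF P4.  `pr : P ⟶ X` with `Γ(X, U) ≃ Γ(P, pr⁻¹ U)` for all `U`.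
  A cocycle `(V t, g t t')` on `P` (indexed by points) which is a coboundary over each
  `pr⁻¹ (U p)` (`g t t' = h p t / h p t'` on `V' p t ⊓ V' p t'`) is cohomologous to the pull-back
  of a cocycle `u p p'` on `X` for the cover `U p`.
-/

set_option autoImplicit false

universe u

open CategoryTheory AlgebraicGeometry TopologicalSpace Opposite

namespace Fermat.Agent.S26.H686

variable {P : Scheme.{u}}

/-- Restriction of functions `Γ(P, V) → Γ(P, V')` for `V' ≤ V`. -/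
noncomputable def rs {V V' : P.Opens} (h : V' ≤ V) : Γ(P, V) →+* Γ(P, V') :=
  (P.presheaf.map (homOfLE h).op).hom

theorem rs_rs {V V' V'' : P.Opens} (h : V' ≤ V) (h' : V'' ≤ V') (s : Γ(P, V)) :
    rs h' (rs h s) = rs (h'.trans h) s := by
  simp only [rs]
  rw [← CommRingCat.comp_apply, ← Functor.map_comp]
  rfl

theorem rs_self {V : P.Opens} (s : Γ(P, V)) : rs (le_refl V) s = s := by
  simp only [rs]
  have : (homOfLE (le_refl V)).op = 𝟙 (op V) := rfl
  rw [this, P.presheaf.map_id]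
  rfl

/-- Functions are determined locally. -/
theorem rs_ext {V : P.Opens} (s t : Γ(P, V))
    (H : ∀ p ∈ V, ∃ (V' : P.Opens) (h : V' ≤ V), p ∈ V' ∧ rs h s = rs h t) : s = t := by
  choose! V' h hp hst using H
  let ι := {p : P // p ∈ V}
  refine TopCat.Sheaf.eq_of_locally_eq' P.sheaf (fun i : ι => V' i.1) V
    (fun i => homOfLE (h i.1 i.2)) ?_ s t ?_
  · intro p hpV
    exact Opens.mem_iSup.mpr ⟨⟨p, hpV⟩, hp p hpV⟩
  · intro i
    exact hst i.1 i.2

/-- Functions glue. -/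
theorem rs_glue {ι : Type*} (W : ι → P.Opens) (V : P.Opens) (hW : ∀ i, W i ≤ V)
    (hcov : ∀ p ∈ V, ∃ i, p ∈ W i) (sf : ∀ i, Γ(P, W i))
    (hcomp : ∀ i j, rs (inf_le_left : W i ⊓ W j ≤ W i) (sf i) =
      rs (inf_le_right : W i ⊓ W j ≤ W j) (sf j)) :
    ∃ s : Γ(P, V), ∀ i, rs (hW i) s = sf i := by
  obtain ⟨s, hs, -⟩ := TopCat.Sheaf.existsUnique_gluing' P.sheaf W V
    (fun i => homOfLE (hW i)) (fun p hp => by
      obtain ⟨i, hi⟩ := hcov p hp
      exact Opens.mem_iSup.mpr ⟨i, hi⟩) sf (fun i j => hcomp i j)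
  exact ⟨s, hs⟩


/-- Restriction of units. -/
noncomputable def rsU {V V' : P.Opens} (h : V' ≤ V) : Γ(P, V)ˣ →* Γ(P, V')ˣ :=
  Units.map (rs h).toMonoidHom

@[simp] theorem coe_rsU {V V' : P.Opens} (h : V' ≤ V) (a : Γ(P, V)ˣ) :
    ((rsU h a : Γ(P, V')ˣ) : Γ(P, V')) = rs h (a : Γ(P, V)) := rfl

/-- Units glue. -/
theorem rs_glue_units {ι : Type*} (W : ι → P.Opens) (V : P.Opens) (hW : ∀ i, W i ≤ V)
    (hcov : ∀ p ∈ V, ∃ i, p ∈ W i) (sf : ∀ i, Γ(P, W i)ˣ)
    (hcomp : ∀ i j, rs (inf_le_left : W i ⊓ W j ≤ W i) (sf i : Γ(P, W i)) =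
      rs (inf_le_right : W i ⊓ W j ≤ W j) (sf j : Γ(P, W j))) :
    ∃ s : Γ(P, V)ˣ, ∀ i, rs (hW i) (s : Γ(P, V)) = (sf i : Γ(P, W i)) := by
  obtain ⟨a, ha⟩ := rs_glue W V hW hcov (fun i => (sf i : Γ(P, W i))) hcomp
  have hcomp' : ∀ i j, rs (inf_le_left : W i ⊓ W j ≤ W i) ((sf i)⁻¹ : Γ(P, W i)ˣ) =
      rs (inf_le_right : W i ⊓ W j ≤ W j) ((sf j)⁻¹ : Γ(P, W j)ˣ) := by
    intro i j
    have h1 := congrArg (fun u : Γ(P, W i ⊓ W j)ˣ => ((u⁻¹ : Γ(P, W i ⊓ W j)ˣ) : Γ(P, W i ⊓ W j)))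
      (Units.ext (hcomp i j) : rsU inf_le_left (sf i) = rsU inf_le_right (sf j))
    simpa only [← map_inv, coe_rsU] using h1
  obtain ⟨b, hb⟩ := rs_glue W V hW hcov (fun i => (((sf i)⁻¹ : Γ(P, W i)ˣ) : Γ(P, W i))) hcomp'
  have hab : a * b = 1 := by
    refine rs_ext _ _ fun p hp => ?_
    obtain ⟨i, hi⟩ := hcov p hp
    refine ⟨W i, hW i, hi, ?_⟩
    rw [map_mul, ha, hb, map_one, Units.mul_inv]
  exact ⟨⟨a, b, hab, by rw [mul_comm]; exact hab⟩, ha⟩

/-- Pull-back of functions commutes with restriction. -/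
theorem rs_app {X : Scheme.{u}} (pr : P ⟶ X) {U U' : X.Opens} (h : U' ≤ U) (a : Γ(X, U)) :
    rs (show pr ⁻¹ᵁ U' ≤ pr ⁻¹ᵁ U from Scheme.Hom.preimage_mono pr h) ((pr.app U).hom a) =
      (pr.app U').hom (rs h a) := by
  simp only [rs]
  rw [← CommRingCat.comp_apply, ← CommRingCat.comp_apply]
  congr 2
  exact (Scheme.Hom.naturality pr (homOfLE h).op).symm


section Core

variable {X : Scheme.{u}} (pr : P ⟶ X)

/-- **Core of P4.**  See the module docstring. -/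
theorem descend_cocycle (hF : ∀ U : X.Opens, Function.Bijective (pr.app U).hom)
    (V : P → P.Opens) (g : ∀ t t', Γ(P, V t ⊓ V t')ˣ)
    (hcoc : ∀ t t' t'',
      rs (show V t ⊓ V t' ⊓ V t'' ≤ V t ⊓ V t'' from
          le_inf (inf_le_left.trans inf_le_left) inf_le_right) (g t t'' : Γ(P, V t ⊓ V t'')) =
        rs (show V t ⊓ V t' ⊓ V t'' ≤ V t ⊓ V t' from inf_le_left) (g t t' : Γ(P, V t ⊓ V t')) *
          rs (show V t ⊓ V t' ⊓ V t'' ≤ V t' ⊓ V t'' from
            le_inf (inf_le_left.trans inf_le_right) inf_le_right)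
            (g t' t'' : Γ(P, V t' ⊓ V t'')))
    (U : X → X.Opens) (V' : X → P → P.Opens)
    (hV'mem : ∀ p t, pr t ∈ U p → t ∈ V' p t)
    (hV'V : ∀ p t, V' p t ≤ V t) (hV'U : ∀ p t, V' p t ≤ pr ⁻¹ᵁ U p)
    (h : ∀ p t, Γ(P, V' p t)ˣ)
    (hh : ∀ p t t',
      rs (show V' p t ⊓ V' p t' ≤ V t ⊓ V t' from inf_le_inf (hV'V p t) (hV'V p t'))
          (g t t' : Γ(P, V t ⊓ V t')) *
        rs (inf_le_right : V' p t ⊓ V' p t' ≤ V' p t') (h p t' : Γ(P, V' p t')) =
      rs (inf_le_left : V' p t ⊓ V' p t' ≤ V' p t) (h p t : Γ(P, V' p t))) :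
    ∃ u : ∀ p p', Γ(X, U p ⊓ U p')ˣ,
      (∀ p p' p'',
        rs (show U p ⊓ U p' ⊓ U p'' ≤ U p ⊓ U p'' from
            le_inf (inf_le_left.trans inf_le_left) inf_le_right) (u p p'' : Γ(X, U p ⊓ U p'')) =
          rs (show U p ⊓ U p' ⊓ U p'' ≤ U p ⊓ U p' from inf_le_left)
              (u p p' : Γ(X, U p ⊓ U p')) *
            rs (show U p ⊓ U p' ⊓ U p'' ≤ U p' ⊓ U p'' from
              le_inf (inf_le_left.trans inf_le_right) inf_le_right)
              (u p' p'' : Γ(X, U p' ⊓ U p''))) ∧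
      ∀ t t',
        rs (show V' (pr t) t ⊓ V' (pr t') t' ≤ V t ⊓ V t' from
            inf_le_inf (hV'V _ t) (hV'V _ t')) (g t t' : Γ(P, V t ⊓ V t')) *
          rs (inf_le_right : V' (pr t) t ⊓ V' (pr t') t' ≤ V' (pr t') t')
            (h (pr t') t' : Γ(P, V' (pr t') t')) =
        rs (inf_le_left : V' (pr t) t ⊓ V' (pr t') t' ≤ V' (pr t) t)
            (h (pr t) t : Γ(P, V' (pr t) t)) *
          rs (show V' (pr t) t ⊓ V' (pr t') t' ≤ pr ⁻¹ᵁ (U (pr t) ⊓ U (pr t')) from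
              le_inf (inf_le_left.trans (hV'U _ t)) (inf_le_right.trans (hV'U _ t')))
            ((pr.app (U (pr t) ⊓ U (pr t'))).hom (u (pr t) (pr t') : Γ(X, U (pr t) ⊓ U (pr t')))) := by
  -- Step 1: the units `a p p'` on `pr⁻¹ (U p ⊓ U p')`
  have hW : ∀ p p' s, V' p s ⊓ V' p' s ≤ pr ⁻¹ᵁ (U p ⊓ U p') := fun p p' s =>
    le_inf (inf_le_left.trans (hV'U p s)) (inf_le_right.trans (hV'U p' s))
  have step1 : ∀ p p', ∃ a : Γ(P, pr ⁻¹ᵁ (U p ⊓ U p'))ˣ, ∀ s,
      rs (hW p p' s) (a : Γ(P, pr ⁻¹ᵁ (U p ⊓ U p'))) *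
        rs (inf_le_left : V' p s ⊓ V' p' s ≤ V' p s) (h p s : Γ(P, V' p s)) =
      rs (inf_le_right : V' p s ⊓ V' p' s ≤ V' p' s) (h p' s : Γ(P, V' p' s)) := by
    intro p p'
    have hc : ∀ s s' : P,
        rs (inf_le_left : (V' p s ⊓ V' p' s) ⊓ (V' p s' ⊓ V' p' s') ≤ V' p s ⊓ V' p' s)
          ((rsU inf_le_right (h p' s) * (rsU inf_le_left (h p s))⁻¹ :
            Γ(P, V' p s ⊓ V' p' s)ˣ) : Γ(P, V' p s ⊓ V' p' s)) =
        rs (inf_le_right : (V' p s ⊓ V' p' s) ⊓ (V' p s' ⊓ V' p' s') ≤ V' p s' ⊓ V' p' s')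
          ((rsU inf_le_right (h p' s') * (rsU inf_le_left (h p s'))⁻¹ :
            Γ(P, V' p s' ⊓ V' p' s')ˣ) : Γ(P, V' p s' ⊓ V' p' s')) := by
      intro s s'
      -- everything restricted to `O`
      set O : P.Opens := (V' p s ⊓ V' p' s) ⊓ (V' p s' ⊓ V' p' s') with hO
      have e1 := congrArg (rs (show O ≤ V' p s ⊓ V' p s' from
        le_inf (inf_le_left.trans inf_le_left) (inf_le_right.trans inf_le_left))) (hh p s s')
      have e2 := congrArg (rs (show O ≤ V' p' s ⊓ V' p' s' from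
        le_inf (inf_le_left.trans inf_le_right) (inf_le_right.trans inf_le_right))) (hh p' s s')
      simp only [map_mul, rs_rs] at e1 e2
      -- as units
      let A : Γ(P, O)ˣ := rsU (inf_le_left.trans inf_le_left) (h p s)
      let A' : Γ(P, O)ˣ := rsU (inf_le_left.trans inf_le_right) (h p' s)
      let B : Γ(P, O)ˣ := rsU (inf_le_right.trans inf_le_left) (h p s')
      let B' : Γ(P, O)ˣ := rsU (inf_le_right.trans inf_le_right) (h p' s')
      let G : Γ(P, O)ˣ := rsU (le_inf ((inf_le_left.trans inf_le_left).trans (hV'V p s))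
        ((inf_le_right.trans inf_le_left).trans (hV'V p s'))) (g s s')
      have u1 : G * B = A := Units.ext e1
      have u2 : G * B' = A' := Units.ext e2
      have key : A' * A⁻¹ = B' * B⁻¹ := by
        rw [← u1, ← u2, mul_inv_rev, mul_comm G B', mul_assoc, ← mul_assoc G, mul_comm G,
          mul_assoc, mul_inv_cancel, mul_one]
      have h3 : rsU (inf_le_left : O ≤ V' p s ⊓ V' p' s)
          (rsU inf_le_right (h p' s) * (rsU inf_le_left (h p s))⁻¹) = A' * A⁻¹ := by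
        rw [map_mul, map_inv]
        exact congrArg₂ (fun x y : Γ(P, O)ˣ => x * y⁻¹) (Units.ext (rs_rs _ _ _))
          (Units.ext (rs_rs _ _ _))
      have h4 : rsU (inf_le_right : O ≤ V' p s' ⊓ V' p' s')
          (rsU inf_le_right (h p' s') * (rsU inf_le_left (h p s'))⁻¹) = B' * B⁻¹ := by
        rw [map_mul, map_inv]
        exact congrArg₂ (fun x y : Γ(P, O)ˣ => x * y⁻¹) (Units.ext (rs_rs _ _ _))
          (Units.ext (rs_rs _ _ _))
      have := congrArg (fun v : Γ(P, O)ˣ => (v : Γ(P, O))) (h3.trans (key.trans h4.symm))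
      exact this
    obtain ⟨a, ha⟩ := rs_glue_units (fun s : P => V' p s ⊓ V' p' s) (pr ⁻¹ᵁ (U p ⊓ U p'))
      (hW p p') (fun s hs => ⟨s, hV'mem p s hs.1, hV'mem p' s hs.2⟩)
      (fun s => rsU inf_le_right (h p' s) * (rsU inf_le_left (h p s))⁻¹) hc
    refine ⟨a, fun s => ?_⟩
    rw [ha s, Units.val_mul, mul_assoc]
    rw [show rs (inf_le_left : V' p s ⊓ V' p' s ≤ V' p s) (h p s : Γ(P, V' p s)) =
      ((rsU inf_le_left (h p s) : Γ(P, V' p s ⊓ V' p' s)ˣ) : Γ(P, V' p s ⊓ V' p' s)) from rfl,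
      Units.inv_mul, mul_one]
    rfl
  choose a ha using step1
  -- Step 2: descend to `X`
  let e : ∀ p p', Γ(X, U p ⊓ U p') ≃+* Γ(P, pr ⁻¹ᵁ (U p ⊓ U p')) := fun p p' =>
    RingEquiv.ofBijective (pr.app (U p ⊓ U p')).hom (hF _)
  let u : ∀ p p', Γ(X, U p ⊓ U p')ˣ := fun p p' =>
    Units.map (e p p').symm.toRingHom.toMonoidHom (a p p')
  have hu : ∀ p p', (pr.app (U p ⊓ U p')).hom (u p p' : Γ(X, U p ⊓ U p')) =
      (a p p' : Γ(P, pr ⁻¹ᵁ (U p ⊓ U p'))) := fun p p' =>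
    (e p p').apply_symm_apply _
  refine ⟨u, ?_, ?_⟩
  · -- Step 3: cocycle condition
    intro p p' p''
    apply (hF _).injective
    rw [map_mul, ← rs_app, ← rs_app, ← rs_app, hu, hu, hu]
    refine rs_ext _ _ fun s hs => ?_
    have hs1 : s ∈ V' p s := hV'mem p s hs.1.1
    have hs2 : s ∈ V' p' s := hV'mem p' s hs.1.2
    have hs3 : s ∈ V' p'' s := hV'mem p'' s hs.2
    set O : P.Opens := (V' p s ⊓ V' p' s) ⊓ V' p'' s with hO
    have hOle : O ≤ pr ⁻¹ᵁ (U p ⊓ U p' ⊓ U p'') :=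
      le_inf (le_inf ((inf_le_left.trans inf_le_left).trans (hV'U p s))
        ((inf_le_left.trans inf_le_right).trans (hV'U p' s))) (inf_le_right.trans (hV'U p'' s))
    refine ⟨O, hOle, ⟨⟨hs1, hs2⟩, hs3⟩, ?_⟩
    have e13 := congrArg (rs (show O ≤ V' p s ⊓ V' p'' s from
      le_inf (inf_le_left.trans inf_le_left) inf_le_right)) (ha p p'' s)
    have e12 := congrArg (rs (show O ≤ V' p s ⊓ V' p' s from inf_le_left)) (ha p p' s)
    have e23 := congrArg (rs (show O ≤ V' p' s ⊓ V' p'' s from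
      le_inf (inf_le_left.trans inf_le_right) inf_le_right)) (ha p' p'' s)
    simp only [map_mul, rs_rs] at e13 e12 e23 ⊢
    let A : Γ(P, O)ˣ := rsU (inf_le_left.trans inf_le_left) (h p s)
    have hA : IsUnit (rs (show O ≤ V' p s from inf_le_left.trans inf_le_left)
        (h p s : Γ(P, V' p s))) := A.isUnit
    apply hA.mul_right_cancel
    rw [e13, mul_assoc, mul_left_comm, e12, e23]
  · -- Step 4: the relation on `P`
    intro t t'
    rw [hu]
    refine rs_ext _ _ fun s hs => ?_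
    have hs1 : s ∈ V' (pr t) s := hV'mem (pr t) s (hV'U (pr t) t hs.1)
    have hs2 : s ∈ V' (pr t') s := hV'mem (pr t') s (hV'U (pr t') t' hs.2)
    set O : P.Opens := (V' (pr t) t ⊓ V' (pr t') t') ⊓ (V' (pr t) s ⊓ V' (pr t') s) with hO
    refine ⟨O, inf_le_left, ⟨hs, hs1, hs2⟩, ?_⟩
    have e1 := congrArg (rs (show O ≤ V' (pr t) t ⊓ V' (pr t) s from
      le_inf (inf_le_left.trans inf_le_left) (inf_le_right.trans inf_le_left))) (hh (pr t) t s)
    have e2 := congrArg (rs (show O ≤ V' (pr t') s ⊓ V' (pr t') t' from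
      le_inf (inf_le_right.trans inf_le_right) (inf_le_left.trans inf_le_right)))
      (hh (pr t') s t')
    have e3 := congrArg (rs (show O ≤ V t ⊓ V s ⊓ V t' from
      le_inf (le_inf ((inf_le_left.trans inf_le_left).trans (hV'V _ t))
        ((inf_le_right.trans inf_le_left).trans (hV'V _ s)))
        ((inf_le_left.trans inf_le_right).trans (hV'V _ t')))) (hcoc t s t')
    have e4 := congrArg (rs (show O ≤ V' (pr t) s ⊓ V' (pr t') s from inf_le_right))
      (ha (pr t) (pr t') s)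
    simp only [map_mul, rs_rs] at e1 e2 e3 e4 ⊢
    rw [e3, mul_assoc, e2, ← e4, ← e1]
    ring

end Core

end Fermat.Agent.S26.H686
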